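import Fermat.Agent.X13.Main
import Fermat.Agent.Frey.Model
import Fermat.Prelude.Def_FLTPrelim_CofixedLine
import Fermat.Agent.Torsion.QBar
import Mathlib.LinearAlgebra.FiniteDimensional.Basic
import Mathlib.Algebra.Module.Torsion.Basic

/-!
For `p = 13` the Frey curve has no Galois-stable line in its `p`-torsion, in particular no
cofixed one.
-/

set_option autoImplicit false

namespace FLTAgent.X13

open WeierstrassCurve WeierstrassCurve.Affine WeierstrassCurve.Affine.Point
open scoped WeierstrassCurve.Affine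

local notation "Qbar" => AlgebraicClosure ℚ

/-- A stable line of the 13-torsion contradicts a square discriminant. -/
theorem no_stable_submodule (W : WeierstrassCurve ℚ) [W.IsElliptic] (hsq : IsSquare W.Δ)
    (N : Submodule (ZMod 13) (Submodule.torsionBy ℤ (W⁄Qbar).Point ((13 : ℕ) : ℤ)))
    (hN : IsGaloisStable ℚ N)
    (hline : ∀ x ∈ N, x ≠ 0 → ∀ y ∈ N, ∃ n : ℤ, n • x = y) : N = ⊥ := by
  by_contra hbot
  obtain ⟨x, hx, hx0⟩ := Submodule.exists_mem_ne_zero_of_ne_bot hbot
  have hP : addOrderOf (x : (W⁄Qbar).Point) = 13 := by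
    have : Fact (Nat.Prime 13) := ⟨by norm_num⟩
    refine addOrderOf_eq_prime ?_ fun h => hx0 (Subtype.ext h)
    rw [← natCast_zsmul]
    exact (Submodule.mem_torsionBy_iff _ _).1 x.2
  refine no_stable_line W hsq (x : (W⁄Qbar).Point) hP fun σ => ?_
  obtain ⟨n, hn⟩ := hline x hx hx0 (σ • x) (hN σ x hx)
  exact AddSubgroup.mem_zmultiples_iff.2 ⟨n, congrArg Subtype.val hn⟩

lemma isSquare_freyCurve_Δ (P : FreyPackage) :
    IsSquare P.freyCurve.Δ ∧ P.freyCurve.Δ ≠ 0 := by
  have h := congrArg (fun z : ℤ => (z : ℚ)) (Frey.freyCurveInt_Δ P)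
  push_cast at h
  rw [← Frey.freyCurveInt_map, map_Δ, eq_intCast]
  constructor
  · refine ⟨((P.a : ℚ) * P.b * P.c) ^ P.p / 16, ?_⟩
    rw [mul_comm 2 P.p, pow_mul] at h
    field_simp
    linear_combination h
  · exact_mod_cast Frey.freyCurveInt_Δ_ne_zero P

theorem isElliptic_freyCurve (P : FreyPackage) : P.freyCurve.IsElliptic :=
  ⟨isUnit_iff_ne_zero.2 (isSquare_freyCurve_Δ P).2⟩

/-- The Frey curve has no Galois-stable line in its 13-torsion. -/
theorem frey_galoisRepIsIrreducible_thirteen (P : FreyPackage) (hp : P.p = 13)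
    (N : Submodule (ZMod P.p) (Submodule.torsionBy ℤ (P.freyCurve⁄Qbar).Point (P.p : ℤ)))
    (hN : IsGaloisStable ℚ N) (htop : N ≠ ⊤) : N = ⊥ := by
  have := isElliptic_freyCurve P
  revert N
  rw [hp]
  intro N hN htop
  have : Fact (Nat.Prime 13) := ⟨by norm_num⟩
  refine no_stable_submodule _ (isSquare_freyCurve_Δ P).1 N hN fun x hx hx0 y hy => ?_
  have h2 := Torsion.finrank_torsionBy_qbar (W₀ := P.freyCurve) 13
  have hfd := FiniteDimensional.of_finrank_pos (h2.symm ▸ two_pos)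
  have hlt := Submodule.finrank_lt htop
  have hle : Module.finrank (ZMod 13) N ≤ 1 := by omega
  have hx' : (⟨x, hx⟩ : N) ≠ 0 := fun h => hx0 (congrArg Subtype.val h)
  have h1 : Module.finrank (ZMod 13) N = 1 :=
    le_antisymm hle (Module.finrank_pos_iff_exists_ne_zero.2 ⟨⟨x, hx⟩, hx'⟩)
  obtain ⟨c, hc⟩ := exists_smul_eq_of_finrank_eq_one h1 hx' (⟨y, hy⟩ : N)
  refine ⟨c.val, ?_⟩
  rw [natCast_zsmul, ← Nat.cast_smul_eq_nsmul (ZMod 13), ZMod.natCast_zmod_val]
  exact congrArg Subtype.val hc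

/-- The case `p = 13` of "no Galois-stable cofixed line". -/
theorem frey_no_cofixed_thirteen (P : FreyPackage) (hp : P.p = 13) :
    ¬ HasGaloisStableCofixedLine (K := Qbar) ℚ P.freyCurve P.p := by
  rintro ⟨N, hN, hbot, htop, -⟩
  exact hbot (frey_galoisRepIsIrreducible_thirteen P hp N hN htop)

end FLTAgent.X13
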