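import Mathlib.Tactic.LinearCombination
import Mathlib.Tactic.Ring
import Mathlib.Tactic.FieldSimp
import Mathlib.Algebra.Field.Basic
import Mathlib.Algebra.CharP.Defs

/-!
Identities on the curve `y² + (x³ + x² + 1) y = x² + x` (a model of `X₁(13)`), tying the Tate
normal form `b = r s (r - 1)`, `c = s (r - 1)` with `r = 1 - x y`, `s = 1 - x y / (y + 1)` to the
hauptmodul `t` of `X₀(13)`.
-/

set_option autoImplicit false

namespace FLTAgent.X13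

variable {K : Type*} [Field K]

/-- The relation `F₁₃(r, s) = 0` in the coordinates `x, y`, and the nondegeneracy. -/
theorem exists_model {r s : K} (hs : s ≠ 0) (hr1 : r - 1 ≠ 0) (hs1 : s - 1 ≠ 0) (hrs : r - s ≠ 0)
    (hG : let c := s * (r - 1); let b := r * c
          let X5 := r * s * (s - 1); let N6 := s * (s - r - r * s + r ^ 2)
          (X5 * (s - 1) ^ 2 - N6) * N6 ^ 2
            - b * N6 * (2 * (s * (r - s)) + (1 - c) * (s - 1)) * (s - 1) ^ 3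
            + b ^ 2 * (s - 1) ^ 6 = 0) :
    ∃ x y : K, x ≠ 0 ∧ x + 1 ≠ 0 ∧ y ≠ 0 ∧ y + 1 ≠ 0 ∧ r = 1 - x * y ∧
      s = 1 - x * y / (y + 1) ∧ y ^ 2 + (x ^ 3 + x ^ 2 + 1) * y - (x ^ 2 + x) = 0 := by
  simp only at hG
  have hsr : s - r ≠ 0 := by rwa [← neg_sub, neg_ne_zero]
  have h1s : 1 - s ≠ 0 := by rwa [← neg_sub, neg_ne_zero]
  have h1r : 1 - r ≠ 0 := by rwa [← neg_sub, neg_ne_zero]
  refine ⟨(1 - r) * (1 - s) / (s - r), (s - r) / (1 - s), ?_, ?_, ?_, ?_, ?_, ?_, ?_⟩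
  case refine_3 => exact div_ne_zero hsr h1s
  case refine_1 => exact div_ne_zero (mul_ne_zero h1r h1s) hsr
  case refine_5 => field_simp; ring
  case refine_4 =>
    rw [show (s - r) / (1 - s) + 1 = (1 - r) / (1 - s) by field_simp; ring]
    exact div_ne_zero h1r h1s
  case refine_6 =>
    rw [show (s - r) / (1 - s) + 1 = (1 - r) / (1 - s) by field_simp; ring]
    field_simp
    ring
  case refine_7 =>
    set x := (1 - r) * (1 - s) / (s - r) with hx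
    set y := (s - r) / (1 - s) with hy
    have e1 : x * (s - r) = (1 - r) * (1 - s) := by rw [hx, div_mul_cancel₀ _ hsr]
    have e2 : y * (1 - s) = s - r := by rw [hy, div_mul_cancel₀ _ h1s]
    have key : (y ^ 2 + (x ^ 3 + x ^ 2 + 1) * y - (x ^ 2 + x))
        * ((s - r) ^ 3 * (1 - s) ^ 2) * (s ^ 3 * (r - 1) ^ 2) = 0 := by
      have : (y ^ 2 + (x ^ 3 + x ^ 2 + 1) * y - (x ^ 2 + x)) * ((s - r) ^ 3 * (1 - s) ^ 2)
        = (y * (1 - s)) ^ 2 * (s - r) ^ 3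
          + ((x * (s - r)) ^ 3 + (x * (s - r)) ^ 2 * (s - r) + (s - r) ^ 3) * (y * (1 - s)) * (1 - s)
          - ((x * (s - r)) ^ 2 * (s - r) + (x * (s - r)) * (s - r) ^ 2) * (1 - s) ^ 2 := by ring
      rw [this, e1, e2]
      linear_combination (r - s) * hG
    simp only [mul_eq_zero, pow_eq_zero_iff', hsr, h1s, hs, hr1, or_self, or_false, false_and] at key
    exact key
  case refine_2 =>
    intro h
    rw [div_add_one hsr, div_eq_zero_iff] at h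
    have h' : (1 - r) * (1 - s) + (s - r) = 0 := h.resolve_right hsr
    -- then the model equation forces `y (y + 1) = 0`
    have e1 : (1 - r) * (1 - s) = r - s := by linear_combination h'
    have key : (s - r) ^ 4 * (1 - r) * (s ^ 3 * (r - 1) ^ 2) = 0 := by
      have : (s - r) ^ 4 * (1 - r)
        = (s - r) ^ 2 * (s - r) ^ 3
          + ((r - s) ^ 3 + (r - s) ^ 2 * (s - r) + (s - r) ^ 3) * (s - r) * (1 - s)
          - ((r - s) ^ 2 * (s - r) + (r - s) * (s - r) ^ 2) * (1 - s) ^ 2 := by ring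
      rw [this, ← e1]
      linear_combination (r - s) * hG
    simp [hsr, h1r, hs, hr1] at key

/-- The main identity: with `S = ∑ (qₖ - qₖ⁻¹)` over the Galois-stable family of ratios and
`P = b₂ + 2 ∑ x(kP)`, `Δ A(t)⁴ B(t)³ = t P⁶` where `3 t + 9 = S`. -/
theorem model_key {x y b c X4 X5 X6 : K} (hx : x ≠ 0) (hM : x + 1 ≠ 0) (hy : y ≠ 0)
    (hY : y + 1 ≠ 0) (hs0 : y + 1 - x * y ≠ 0)
    (hC : y ^ 2 + (x ^ 3 + x ^ 2 + 1) * y - (x ^ 2 + x) = 0)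
    (hc : c * (y + 1) = (y + 1 - x * y) * (1 - x * y - 1))
    (hb : b * (y + 1) = (1 - x * y) * ((y + 1 - x * y) * (1 - x * y - 1)))
    (h4 : X4 = (1 - x * y) * (1 - x * y - 1))
    (h5 : X5 * (y + 1) ^ 2 = (1 - x * y) * (y + 1 - x * y) * (y + 1 - x * y - (y + 1)))
    (h6 : X6 * (x ^ 2 * y ^ 2) = (y + 1 - x * y) *
      (y + 1 - x * y - (1 - x * y) * (y + 1) - (1 - x * y) * (y + 1 - x * y)
        + (1 - x * y) ^ 2 * (y + 1)))
    (hd1 : X4 ≠ 0) (hd2 : X5 - b ≠ 0) (hd3 : -c ≠ 0) (hd4 : c - X4 ≠ 0) (hd5 : X6 - X5 ≠ 0)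
    (hd6 : b - X6 ≠ 0) :
    ∃ t : K,
      (b / X4 - (b / X4)⁻¹) + ((X4 - b) / (X5 - b) - ((X4 - b) / (X5 - b))⁻¹)
        + ((X6 - c) / (-c) - ((X6 - c) / (-c))⁻¹)
        + ((X5 - X4) / (c - X4) - ((X5 - X4) / (c - X4))⁻¹)
        + ((c - X5) / (X6 - X5) - ((c - X5) / (X6 - X5))⁻¹)
        + ((-X6) / (b - X6) - ((-X6) / (b - X6))⁻¹) = 3 * (t + 3) ∧
      b ^ 3 * (16 * b ^ 2 - 8 * b * c ^ 2 - 20 * b * c + b + c * (c - 1) ^ 3)
          * (t ^ 2 + 5 * t + 13) ^ 4 * (t ^ 2 + 6 * t + 13) ^ 3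
        = t * ((1 - c) ^ 2 - 4 * b + 2 * (b + c + X4 + X5 + X6)) ^ 6 := by
  set W := (y + 1) ^ 2 * (x ^ 2 * y ^ 2) with hWd
  have hW : W ≠ 0 := mul_ne_zero (pow_ne_zero 2 hY) (mul_ne_zero (pow_ne_zero 2 hx) (pow_ne_zero 2 hy))
  set SN := y + 1 - x * y with hSN
  set M := x + 1 with hMd
  have eb : b * W = (1 - x * y) * (SN * (1 - x * y - 1)) * (y + 1) * (x ^ 2 * y ^ 2) := by
    rw [hWd]; linear_combination (y + 1) * (x ^ 2 * y ^ 2) * hb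
  have ec : c * W = SN * (1 - x * y - 1) * (y + 1) * (x ^ 2 * y ^ 2) := by
    rw [hWd]; linear_combination (y + 1) * (x ^ 2 * y ^ 2) * hc
  have e4 : X4 * W = (1 - x * y) * (1 - x * y - 1) * (y + 1) ^ 2 * (x ^ 2 * y ^ 2) := by
    rw [hWd, h4]; ring
  have e5 : X5 * W = (1 - x * y) * SN * (SN - (y + 1)) * (x ^ 2 * y ^ 2) := by
    rw [hWd]; linear_combination (x ^ 2 * y ^ 2) * h5
  have e6 : X6 * W = SN * (SN - (1 - x * y) * (y + 1) - (1 - x * y) * SN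
        + (1 - x * y) ^ 2 * (y + 1)) * (y + 1) ^ 2 := by
    rw [hWd]; linear_combination (y + 1) ^ 2 * h6
  have hS2 : SN * M ^ 2 ≠ 0 := mul_ne_zero hs0 (pow_ne_zero 2 hM)
  have q1 : b / X4 = SN / (y + 1) := by
    rw [div_eq_div_iff hd1 hY]
    refine mul_left_cancel₀ hW ?_
    linear_combination (y + 1) * eb - SN * e4
  have q2 : (X4 - b) / (X5 - b) = -x * (y + 1) / SN := by
    rw [div_eq_div_iff hd2 hs0]
    refine mul_left_cancel₀ hW ?_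
    linear_combination SN * (e4 - eb) - (-x * (y + 1)) * (e5 - eb)
  have q3 : (X6 - c) / (-c) = SN * M ^ 2 / (x * (y + 1)) := by
    rw [div_eq_div_iff hd3 (mul_ne_zero hx hY)]
    refine mul_left_cancel₀ hW ?_
    rw [hMd]
    linear_combination x * (y + 1) * (e6 - ec) + SN * (x + 1) ^ 2 * ec
      + (x ^ 3 * y ^ 3 + 2 * x ^ 3 * y ^ 4 + x ^ 3 * y ^ 5 - x ^ 4 * y ^ 4 - x ^ 4 * y ^ 5) * hC
  have q4 : (X5 - X4) / (c - X4) = -SN * M / (x ^ 2 * (y + 1)) := by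
    rw [div_eq_div_iff hd4 (mul_ne_zero (pow_ne_zero 2 hx) hY)]
    refine mul_left_cancel₀ hW ?_
    rw [hMd]
    linear_combination x ^ 2 * (y + 1) * (e5 - e4) + SN * (x + 1) * (ec - e4)
      + (-(x ^ 4 * y ^ 4) - x ^ 4 * y ^ 5) * hC
  have q5 : (c - X5) / (X6 - X5) = -x ^ 2 * (y + 1) / (SN * M ^ 2) := by
    rw [div_eq_div_iff hd5 hS2]
    refine mul_left_cancel₀ hW ?_
    rw [hMd]
    linear_combination SN * (x + 1) ^ 2 * (ec - e5) + x ^ 2 * (y + 1) * (e6 - e5)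
      + (-(x ^ 3 * y ^ 3) - x ^ 3 * y ^ 4 + 2 * x ^ 4 * y ^ 4 + x ^ 4 * y ^ 5 - x ^ 5 * y ^ 5) * hC
  have q6 : (-X6) / (b - X6) = (y + 1) / (SN * M) := by
    rw [div_eq_div_iff hd6 (mul_ne_zero hs0 hM)]
    refine mul_left_cancel₀ hW ?_
    rw [hMd]
    linear_combination -(SN * (x + 1)) * e6 - (y + 1) * (eb - e6)
  -- `sp = 1 + x + y` satisfies `sp² - (x² + x)² = -(x³ + x² - 2x - 1) sp`
  set sp := 1 + x + y with hspd
  have hsp : SN * M ^ 2 = sp * (y + 1) := by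
    rw [hSN, hMd, hspd]; linear_combination -hC
  have hsp0 : sp ≠ 0 := fun h => hS2 (by rw [hsp, h, zero_mul])
  have hU : x * M ≠ 0 := mul_ne_zero hx hM
  refine ⟨(1 - x - 4 * x ^ 2 - x ^ 3) / (x * M), ?_, ?_⟩
  · have hs' : SN / (y + 1) = sp / M ^ 2 := by
      rw [div_eq_div_iff hY (pow_ne_zero 2 hM)]; exact hsp
    rw [q1, q2, q3, q4, q5, q6]
    field_simp
    rw [show SN = sp * (y + 1) / M ^ 2 by rw [eq_div_iff (pow_ne_zero 2 hM)]; exact hsp]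
    field_simp
    rw [hspd, hMd]
    linear_combination (3 * x * (x + 1)) * hC
  · -- `b`, the cubic factor of the discriminant, and `P` as monomials in units
    have hb' : b * M ^ 3 = -(y ^ 2 * (y + 1) * sp) := by
      refine mul_right_cancel₀ hY ?_
      rw [hMd, hspd]
      linear_combination (x + 1) ^ 3 * hb + (y + 2 * y ^ 2 + y ^ 3 + 2 * x * y + x * y ^ 2 + x ^ 2 * y
        - x ^ 2 * y ^ 2 - x ^ 3 * y ^ 2) * hC
    set E := 16 * b ^ 2 - 8 * b * c ^ 2 - 20 * b * c + b + c * (c - 1) ^ 3 with hE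
    have hE' : E * M ^ 2 * (y + 1) ^ 3 = -((1 - x - 4 * x ^ 2 - x ^ 3) * x * y ^ 6 * sp ^ 3) := by
      refine mul_right_cancel₀ hY ?_
      have : E * (y + 1) ^ 4 = 16 * (b * (y + 1)) ^ 2 * (y + 1) ^ 2
          - 8 * (b * (y + 1)) * (c * (y + 1)) ^ 2 * (y + 1)
          - 20 * (b * (y + 1)) * (c * (y + 1)) * (y + 1) ^ 2 + (b * (y + 1)) * (y + 1) ^ 3
          + (c * (y + 1)) * (c * (y + 1) - (y + 1)) ^ 3 := by rw [hE]; ring
      rw [hb, hc] at this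
      rw [hMd, hspd]
      linear_combination (x + 1) ^ 2 * this +
        (x*y^5 + 3*x*y^6 + 3*x*y^7 + x*y^8 + x^2*y^4 + 4*x^2*y^5 + 4*x^2*y^6 - x^2*y^8 + 2*x^3*y^4
          - 3*x^3*y^5 - 17*x^3*y^6 - 16*x^3*y^7 - 4*x^3*y^8 + x^4*y^4 - 14*x^4*y^5 - 29*x^4*y^6
          - 15*x^4*y^7 - x^4*y^8 - 8*x^5*y^5 - 6*x^5*y^6 + 2*x^5*y^7 + 5*x^6*y^6 + 5*x^6*y^7
          + x^7*y^7) * hC
    set w := 2 * y + (x ^ 3 + x ^ 2 + 1) with hw
    set P := (1 - c) ^ 2 - 4 * b + 2 * (b + c + X4 + X5 + X6) with hP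
    have hP' : P * (x ^ 2 * M ^ 4) = (x ^ 2 + x + 1) ^ 2 * w * y ^ 2 * sp := by
      refine mul_right_cancel₀ hW ?_
      have : P * W = ((y + 1 - c * (y + 1)) ^ 2 - 4 * (b * (y + 1)) * (y + 1)) * (x ^ 2 * y ^ 2)
          + 2 * (b * W + c * W + X4 * W + X5 * W + X6 * W) := by rw [hP, hWd]; ring
      rw [hb, hc, eb, ec, e4, e5, e6] at this
      rw [hWd] at this ⊢
      rw [hMd, hspd, hw]
      linear_combination x ^ 2 * (x + 1) ^ 4 * this +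
        (-(x^2*y^3) - 4*x^2*y^4 - 5*x^2*y^5 - 2*x^2*y^6 - x^3*y^2 - 6*x^3*y^3 - 13*x^3*y^4
          - 12*x^3*y^5 - 4*x^3*y^6 - 3*x^4*y^2 - 12*x^4*y^3 - 21*x^4*y^4 - 18*x^4*y^5 - 6*x^4*y^6
          - 3*x^5*y^2 - 9*x^5*y^3 - 17*x^5*y^4 - 13*x^5*y^5 - 4*x^5*y^6 - x^6*y^2 - x^6*y^3
          - 8*x^6*y^4 - 4*x^6*y^5 - 2*x^6*y^6 + x^7*y^3 - 3*x^7*y^4 + 3*x^7*y^5 - x^8*y^4
          + 3*x^8*y^5 + x^9*y^5) * hC
    set T := 1 - x - 4 * x ^ 2 - x ^ 3 with hT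
    have hA : (T / (x * M)) ^ 2 + 5 * (T / (x * M)) + 13 = (x ^ 2 + x + 1) ^ 3 / (x * M) ^ 2 := by
      field_simp; rw [hT, hMd]; ring
    have hB : (T / (x * M)) ^ 2 + 6 * (T / (x * M)) + 13 = w ^ 2 / (x * M) ^ 2 := by
      field_simp; rw [hT, hMd, hw]; linear_combination -4 * hC
    rw [hA, hB]
    have hb'' : b = -(y ^ 2 * (y + 1) * sp) / M ^ 3 := by rw [eq_div_iff (pow_ne_zero 3 hM)]; exact hb'
    have hE'' : E = -(T * x * y ^ 6 * sp ^ 3) / (M ^ 2 * (y + 1) ^ 3) := by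
      rw [eq_div_iff (mul_ne_zero (pow_ne_zero 2 hM) (pow_ne_zero 3 hY)), ← mul_assoc]; exact hE'
    have hP'' : P = (x ^ 2 + x + 1) ^ 2 * w * y ^ 2 * sp / (x ^ 2 * M ^ 4) := by
      rw [eq_div_iff (mul_ne_zero (pow_ne_zero 2 hx) (pow_ne_zero 4 hM))]; exact hP'
    rw [hb'', hE'', hP'']
    field_simp

end FLTAgent.X13
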