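import Mathlib.RingTheory.Int.Basic
import Mathlib.Algebra.Field.ZMod
import Mathlib.Algebra.GroupWithZero.Basic
import Mathlib.Data.Rat.Lemmas
import Mathlib.Tactic.LinearCombination
import Mathlib.Tactic.Ring
import Mathlib.Tactic.Positivity
import Mathlib.Tactic.Linarith
import Mathlib.Tactic.FieldSimp
import Mathlib.Tactic.NormNum.Prime

/-!
The rational points of `s² = t (t² + 6 t + 13)` (elliptic curve 52a, rank zero):
the only one with finite coordinates is `(0, 0)`. Descent on `c² = a⁴ + 6 a² e² + 13 e⁴`.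
-/

set_option autoImplicit false

namespace FLTAgent.X13

/-- Coprime positive factors of a fourth power are fourth powers. -/
lemma exists_pow_four_of_mul_eq {f g N : ℤ} (hf : 0 < f) (hcop : IsCoprime f g)
    (h : f * g = N ^ 4) : ∃ P : ℤ, 0 ≤ P ∧ f = P ^ 4 := by
  obtain ⟨d, hd⟩ := exists_associated_pow_of_mul_eq_pow' hcop h
  refine ⟨|d|, abs_nonneg _, ?_⟩
  rcases Int.associated_iff.1 hd with h1 | h1
  · rw [← h1, (by decide : Even 4).pow_abs]
  · have : 0 ≤ d ^ 4 := by positivity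
    omega

lemma quartic_no_solution : ∀ (n : ℕ) (a e c : ℤ), e.natAbs = n → IsCoprime a e → a ≠ 0 →
    e ≠ 0 → a ^ 4 + 6 * a ^ 2 * e ^ 2 + 13 * e ^ 4 ≠ c ^ 2 := by
  intro n
  induction n using Nat.strong_induction_on with
  | _ n ih =>
  intro a e c hn hcop ha he heq
  wlog hc : 0 ≤ c generalizing c
  · exact this (-c) (by rw [heq]; ring) (by omega)
  -- `a` and `e` are not both odd
  have hpar : ¬ (Odd a ∧ Odd e) := by
    rintro ⟨⟨u, rfl⟩, ⟨v, rfl⟩⟩
    have h := congrArg (fun z : ℤ => (z : ZMod 32)) heq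
    have key : ∀ u v w : ZMod 32, (2 * u + 1) ^ 4 + 6 * (2 * u + 1) ^ 2 * (2 * v + 1) ^ 2
        + 13 * (2 * v + 1) ^ 4 ≠ w ^ 2 := by
      have h2 : ∀ s t w : ZMod 32, (∃ u, (2 * u + 1) ^ 2 = s) → (∃ v, (2 * v + 1) ^ 2 = t) →
          s ^ 2 + 6 * s * t + 13 * t ^ 2 ≠ w ^ 2 := by
        have hs : ∀ u : ZMod 32, (2 * u + 1) ^ 2 ∈ ({1, 9, 17, 25} : Finset (ZMod 32)) := by decide
        have hmain : ∀ s ∈ ({1, 9, 17, 25} : Finset (ZMod 32)),
            ∀ t ∈ ({1, 9, 17, 25} : Finset (ZMod 32)), ∀ w : ZMod 32,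
            s ^ 2 + 6 * s * t + 13 * t ^ 2 ≠ w ^ 2 := by decide
        rintro s t w ⟨u, rfl⟩ ⟨v, rfl⟩
        exact hmain _ (hs u) _ (hs v) w
      intro u v w h
      exact h2 _ _ w ⟨u, rfl⟩ ⟨v, rfl⟩ (by rw [← h]; ring)
    push_cast at h
    exact key _ _ _ h
  set X : ℤ := a ^ 2 + 3 * e ^ 2 with hX
  have hXodd : Odd X := by
    rcases Int.even_or_odd a with h | h <;> rcases Int.even_or_odd e with h' | h'
    · exfalso
      obtain ⟨u, v, huv⟩ := hcop
      have : Even (1 : ℤ) := huv ▸ (h.mul_left u).add (h'.mul_left v)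
      exact absurd this (by decide)
    · rw [hX]; exact Even.add_odd (h.pow_of_ne_zero (by decide))
        (Odd.mul (by decide) h'.pow)
    · rw [hX]; exact h.pow.add_even ((h'.pow_of_ne_zero (by decide)).mul_left 3)
    · exact absurd ⟨h, h'⟩ hpar
  have hXpos : 0 < X := by positivity
  have hcX : X < c := by
    have : X ^ 2 < c ^ 2 := by
      have : (0:ℤ) < e ^ 4 := by positivity
      nlinarith
    exact abs_lt_of_sq_lt_sq' this hc |>.2
  have hfac : (c - X) * (c + X) = 4 * e ^ 4 := by rw [hX]; linear_combination -heq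
  -- `c` is odd
  have hcodd : Odd c := by
    rcases Int.even_or_odd c with h | h
    · exfalso
      have h1 : Odd (c - X) := h.sub_odd hXodd
      have h2 : Odd (c + X) := h.add_odd hXodd
      have := h1.mul h2
      rw [hfac] at this
      exact Int.not_even_iff_odd.2 this ((show Even (4 : ℤ) by decide).mul_right _)
    · exact h
  obtain ⟨f, hf⟩ : Even (c - X) := hcodd.sub_odd hXodd
  have hg : c + X = (f + X) + (f + X) := by omega
  have hfg : f * (f + X) = e ^ 4 := by rw [hg, hf] at hfac; linarith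
  have haX : IsCoprime X e := by
    have : IsCoprime (a ^ 2) e := hcop.pow_left
    have h := this.add_mul_right_left (3 * e)
    rwa [show a ^ 2 + 3 * e * e = X by rw [hX]; ring] at h
  have hXf : IsCoprime X (f * (f + X)) := hfg ▸ haX.pow_right
  have hffX : IsCoprime f (f + X) := by
    have h1 : IsCoprime f X := hXf.of_mul_right_left.symm
    simpa [add_comm] using h1.add_mul_right_right 1
  obtain ⟨α, hα0, hα⟩ := exists_pow_four_of_mul_eq (by omega) hffX hfg
  obtain ⟨β, hβ0, hβ⟩ := exists_pow_four_of_mul_eq (f := f + X) (g := f) (by omega) hffX.symm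
    (by rw [mul_comm]; exact hfg)
  have he2 : e ^ 2 = α ^ 2 * β ^ 2 := by
    have : (e ^ 2) ^ 2 = (α ^ 2 * β ^ 2) ^ 2 := by rw [hα, show α ^ 4 + X = β ^ 4 by omega] at hfg; linear_combination -hfg
    exact (pow_left_inj₀ (sq_nonneg e) (by positivity) (by decide)).1 this
  have ha2 : a ^ 2 = β ^ 4 - α ^ 4 - 3 * α ^ 2 * β ^ 2 := by
    have hab : β ^ 4 = α ^ 4 + a ^ 2 + 3 * e ^ 2 := by omega
    linear_combination -hab - 3 * he2
  have hαβodd : Odd (β ^ 4 - α ^ 4) := by
    rw [show β ^ 4 - α ^ 4 = X by omega]; exact hXodd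
  have hαeven : Even α := by
    rcases Int.even_or_odd α with h | h
    · exact h
    · exfalso
      have hβ : Even β := by
        rcases Int.even_or_odd β with h' | h'
        · exact h'
        · exact absurd (h'.pow.sub_odd h.pow : Even (β ^ 4 - α ^ 4))
            (Int.not_even_iff_odd.2 hαβodd)
      obtain ⟨u, rfl⟩ := h
      obtain ⟨v, rfl⟩ := hβ
      have h := congrArg (fun z : ℤ => (z : ZMod 4)) ha2
      push_cast at h
      revert h
      generalize (u : ZMod 4) = u', (v : ZMod 4) = v', (a : ZMod 4) = a'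
      revert u' v' a'
      decide
  obtain ⟨N, hN⟩ := hαeven
  have hN0 : N ≠ 0 := by
    rintro rfl
    apply he
    have : e ^ 2 = 0 := by rw [he2, hN]; ring
    exact pow_eq_zero_iff (n := 2) (by decide) |>.1 this
  have hcopαβ : IsCoprime α β := (IsCoprime.pow_iff (by decide) (by decide)).1
    (hα ▸ hβ ▸ hffX : IsCoprime (α ^ 4) (β ^ 4))
  set Z : ℤ := β ^ 2 - 6 * N ^ 2 with hZ
  have hprod : (Z - a) * (Z + a) = 52 * N ^ 4 := by
    rw [hZ]; rw [hN] at ha2; linear_combination -ha2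
  have hβodd : Odd β := by
    rcases Int.even_or_odd β with h | h
    · exact absurd ((h.pow_of_ne_zero (by decide)).sub
        ((show Even α from ⟨N, hN⟩).pow_of_ne_zero (by decide))) (Int.not_even_iff_odd.2 hαβodd)
    · exact h
  have haodd : Odd a := by
    have h : Odd (a ^ 2) := by
      rw [ha2]
      have hα : Even α := ⟨N, hN⟩
      exact hαβodd.sub_even ((((hα.pow_of_ne_zero (by decide)).mul_left 3)).mul_right _)
    exact (Int.odd_pow.1 h).resolve_right (by decide)
  have hZodd : Odd Z := by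
    rw [hZ]; exact hβodd.pow.sub_even ((show Even (6 : ℤ) by decide).mul_right _)
  obtain ⟨F, hF⟩ : Even (Z - a) := hZodd.sub_odd haodd
  have hG : Z + a = (F + a) + (F + a) := by omega
  have hFG : F * (F + a) = 13 * N ^ 4 := by rw [hG, hF] at hprod; linarith
  have haN : IsCoprime a N := by
    have h1 : IsCoprime (β ^ 4) α := (hcopαβ.symm).pow_left
    have h2 := h1.add_mul_right_left (- α ^ 3 - 3 * α * β ^ 2)
    rw [show β ^ 4 + (-α ^ 3 - 3 * α * β ^ 2) * α = a ^ 2 by rw [ha2]; ring] at h2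
    have h3 : IsCoprime a α := (IsCoprime.pow_left_iff (by decide)).1 h2
    rw [hN] at h3
    exact h3.of_isCoprime_of_dvd_right ⟨2, by ring⟩
  have hFGcop : IsCoprime F (F + a) := by
    have h13 : Prime (13 : ℤ) := by
      rw [show (13 : ℤ) = ((13 : ℕ) : ℤ) from rfl, ← Nat.prime_iff_prime_int]; norm_num
    have ha13 : ¬ (13 : ℤ) ∣ a := by
      intro h
      have hFd : (13 : ℤ) ∣ F := by
        have h' : (13 : ℤ) ∣ F * (F + a) := ⟨_, hFG⟩
        rcases h13.dvd_or_dvd h' with h' | h'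
        · exact h'
        · exact (dvd_add_left h).1 h'
      obtain ⟨F', rfl⟩ := hFd
      obtain ⟨a', rfl⟩ := h
      have : (13 : ℤ) ∣ N ^ 4 := ⟨F' * (F' + a'), by linarith⟩
      have hN13 := h13.dvd_of_dvd_pow this
      exact h13.not_isUnit (haN.isUnit_of_dvd' (dvd_mul_right _ _) hN13)
    have h1 : IsCoprime a (13 * N ^ 4) :=
      ((h13.coprime_iff_not_dvd).2 ha13).symm.mul_right haN.pow_right
    rw [← hFG] at h1
    rw [add_comm]
    simpa using h1.of_mul_right_left.symm.add_mul_right_right 1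
  -- both factors have the same sign
  have hsign : (0 < F ∧ 0 < F + a) ∨ (F < 0 ∧ F + a < 0) := by
    have : 0 < F * (F + a) := by rw [hFG]; positivity
    exact mul_pos_iff.1 this
  have key : ∀ f g : ℤ, 0 < f → 0 < g → IsCoprime f g → f * g = 13 * N ^ 4 →
      ∃ P Q : ℤ, 0 ≤ P ∧ 0 ≤ Q ∧ P * Q = |N| ∧ IsCoprime P Q ∧ f + g = 13 * P ^ 4 + Q ^ 4 := by
    intro f g hf hg hfg h
    have h13 : Prime (13 : ℤ) := by
      rw [show (13 : ℤ) = ((13 : ℕ) : ℤ) from rfl, ← Nat.prime_iff_prime_int]; norm_num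
    wlog hd : (13 : ℤ) ∣ f generalizing f g
    · have hd' : (13 : ℤ) ∣ g := (h13.dvd_or_dvd ⟨_, h⟩).resolve_left hd
      obtain ⟨P, Q, h1, h2, h3, h4, h5⟩ := this g f hg hf hfg.symm (by rw [mul_comm]; exact h) hd'
      exact ⟨P, Q, h1, h2, h3, h4, by rw [add_comm]; exact h5⟩
    obtain ⟨f', rfl⟩ := hd
    have h' : f' * g = N ^ 4 := by linarith
    have hcop' : IsCoprime f' g := hfg.of_mul_left_right
    obtain ⟨P, hP0, hP⟩ := exists_pow_four_of_mul_eq (by omega) hcop' h'
    obtain ⟨Q, hQ0, hQ⟩ := exists_pow_four_of_mul_eq hg hcop'.symm (by rw [mul_comm]; exact h')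
    refine ⟨P, Q, hP0, hQ0, ?_, (IsCoprime.pow_iff (by decide) (by decide)).1 (hP ▸ hQ ▸ hcop'),
      by rw [hP, hQ]⟩
    have : (P * Q) ^ 4 = |N| ^ 4 := by
      rw [(by decide : Even 4).pow_abs, mul_pow, ← hP, ← hQ, h']
    exact (pow_left_inj₀ (by positivity) (abs_nonneg _) (by decide)).1 this
  rcases hsign with ⟨h1, h2⟩ | ⟨h1, h2⟩
  · obtain ⟨P, Q, hP0, hQ0, hPQ, hPQc, hsum⟩ := key F (F + a) h1 h2 hFGcop hFG
    have hN2 : N ^ 2 = P ^ 2 * Q ^ 2 := by rw [← sq_abs N, ← hPQ]; ring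
    have hβ2 : β ^ 2 = Q ^ 4 + 6 * Q ^ 2 * P ^ 2 + 13 * P ^ 4 := by
      have : F + (F + a) = Z := by omega
      rw [hsum, hZ, hN2] at this; linarith
    have hP : P ≠ 0 := by
      rintro rfl; exact hN0 (abs_eq_zero.1 (by rw [← hPQ, zero_mul]))
    have hQ : Q ≠ 0 := by
      rintro rfl; exact hN0 (abs_eq_zero.1 (by rw [← hPQ, mul_zero]))
    refine ih P.natAbs ?_ Q P β rfl hPQc.symm hQ hP hβ2.symm
    have hPN : P ≤ |N| := by
      rw [← hPQ]; exact le_mul_of_one_le_right hP0 (by omega)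
    have hNα : |N| < α := by
      rw [hN] at hα0 ⊢
      rw [abs_of_nonneg (by omega)]; omega
    have hαe : α ≤ |e| := by
      have hβpos : 1 ≤ β := by
        rcases eq_or_lt_of_le hβ0 with h | h
        · simp [← h] at hβodd
        · omega
      have : e ^ 2 = (α * β) ^ 2 := by rw [he2]; ring
      rw [sq_eq_sq_iff_abs_eq_abs, abs_of_nonneg (mul_nonneg hα0 hβ0)] at this
      rw [this]; exact le_mul_of_one_le_right hα0 hβpos
    rw [← hn]
    have h5 : (P.natAbs : ℤ) < e.natAbs := by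
      rw [Int.natCast_natAbs, Int.natCast_natAbs, abs_of_nonneg hP0]; omega
    exact_mod_cast h5
  · obtain ⟨P, Q, hP0, hQ0, hPQ, -, hsum⟩ := key (-F) (-(F + a)) (by omega) (by omega)
      hFGcop.neg_neg (by rw [← hFG]; ring)
    have hN2 : N ^ 2 = P ^ 2 * Q ^ 2 := by rw [← sq_abs N, ← hPQ]; ring
    have hP : P ≠ 0 := by
      rintro rfl; exact hN0 (abs_eq_zero.1 (by rw [← hPQ, zero_mul]))
    have hP4 : 0 < P ^ 4 := by positivity
    have : F + (F + a) = Z := by omega
    nlinarith [sq_nonneg β, sq_nonneg (Q ^ 2 - 3 * P ^ 2)]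

/-- The elliptic curve 52a has no rational point with nonzero abscissa. -/
theorem curve52_rat_eq_zero {t s : ℚ} (h : s ^ 2 = t * (t ^ 2 + 6 * t + 13)) : t = 0 := by
  by_contra ht
  obtain ⟨u, v, hv, huv, rfl⟩ : ∃ u v : ℤ, 0 < v ∧ IsCoprime u v ∧ t = u / v :=
    ⟨t.num, t.den, by exact_mod_cast t.den_pos, t.isCoprime_num_den, (Rat.num_div_den t).symm⟩
  have hv0 : (v : ℚ) ≠ 0 := by exact_mod_cast hv.ne'
  have hu : u ≠ 0 := by rintro rfl; simp at ht
  have hsq : IsSquare (u * v * (u ^ 2 + 6 * u * v + 13 * v ^ 2)) := by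
    rw [← Rat.isSquare_intCast_iff]
    refine ⟨s * v ^ 2, ?_⟩
    push_cast
    field_simp at h
    linear_combination -(v : ℚ) * h
  obtain ⟨w, hw⟩ := hsq
  set q := u ^ 2 + 6 * u * v + 13 * v ^ 2 with hq
  have hqpos : 0 < q := by
    have : (0 : ℤ) < v ^ 2 := by positivity
    nlinarith [sq_nonneg (u + 3 * v)]
  have hupos : 0 < u := by
    have h1 : 0 ≤ u * (v * q) := by
      rw [← mul_assoc, hw]; exact mul_self_nonneg w
    have : 0 < v * q := by positivity
    rcases lt_trichotomy u 0 with h | h | h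
    · nlinarith
    · exact absurd h hu
    · exact h
  have hvq : IsCoprime v q := by
    have h1 : IsCoprime v (u ^ 2) := huv.symm.pow_right
    have h2 := h1.add_mul_left_right (6 * u + 13 * v)
    rwa [show u ^ 2 + v * (6 * u + 13 * v) = q by rw [hq]; ring] at h2
  obtain ⟨e, hev⟩ : ∃ e : ℤ, e ^ 2 = v := by
    obtain ⟨e, he⟩ := exists_associated_pow_of_mul_eq_pow' (huv.symm.mul_right hvq)
      (show v * (u * q) = w ^ 2 by rw [pow_two, ← hw]; ring)
    rcases Int.associated_iff.1 he with h | h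
    · exact ⟨e, h⟩
    · nlinarith [sq_nonneg e]
  have he0 : e ≠ 0 := by rintro rfl; simp at hev; omega
  have huq : IsSquare (u * q) := by
    have h1 : e ∣ w := by
      rw [← Int.pow_dvd_pow_iff (n := 2) (by decide), hev, sq]
      exact ⟨u * q, by rw [← hw]; ring⟩
    obtain ⟨w', rfl⟩ := h1
    refine ⟨w', mul_left_cancel₀ (pow_ne_zero 2 he0) ?_⟩
    rw [← hev] at hw; linear_combination hw
  obtain ⟨z, hz⟩ := huq
  by_cases h13 : (13 : ℤ) ∣ u
  · obtain ⟨u', rfl⟩ := h13
    have hq' : q = 13 * (13 * u' ^ 2 + 6 * u' * v + v ^ 2) := by rw [hq]; ring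
    obtain ⟨z', rfl⟩ : (13 : ℤ) ∣ z := by
      have h13 : Prime (13 : ℤ) := by
        rw [show (13 : ℤ) = ((13 : ℕ) : ℤ) from rfl, ← Nat.prime_iff_prime_int]; norm_num
      exact (or_self_iff).1 (h13.dvd_or_dvd ⟨u' * q, by rw [← hz]; ring⟩)
    have h2 : u' * (13 * u' ^ 2 + 6 * u' * v + v ^ 2) = z' ^ 2 := by
      rw [hq'] at hz; linarith
    have hc : IsCoprime u' (13 * u' ^ 2 + 6 * u' * v + v ^ 2) := by
      have h1 : IsCoprime u' (v ^ 2) := huv.of_mul_left_right.pow_right
      have h2 := h1.add_mul_left_right (13 * u' + 6 * v)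
      rwa [show v ^ 2 + u' * (13 * u' + 6 * v) = 13 * u' ^ 2 + 6 * u' * v + v ^ 2 by ring] at h2
    obtain ⟨a, ha⟩ := exists_associated_pow_of_mul_eq_pow' hc h2
    obtain ⟨c, hc'⟩ := exists_associated_pow_of_mul_eq_pow' hc.symm (by rw [mul_comm]; exact h2)
    rcases Int.associated_iff.1 ha with ha | ha
    swap; · nlinarith [sq_nonneg a]
    rcases Int.associated_iff.1 hc' with hc' | hc'
    swap; · nlinarith [sq_nonneg c]
    have ha0 : a ≠ 0 := by rintro rfl; simp at ha; omega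
    refine quartic_no_solution a.natAbs e a c rfl ?_ he0 ha0 ?_
    · have := huv.of_mul_left_right
      rw [← ha, ← hev] at this
      exact ((IsCoprime.pow_iff (by decide) (by decide)).1 this).symm
    · rw [hc', ← ha, ← hev]; ring
  · have hc : IsCoprime u q := by
      have h1 : IsCoprime u (13 : ℤ) := by
        have h13' : Prime (13 : ℤ) := by
          rw [show (13 : ℤ) = ((13 : ℕ) : ℤ) from rfl, ← Nat.prime_iff_prime_int]; norm_num
        exact ((h13'.coprime_iff_not_dvd).2 h13).symm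
      have h2 := (h1.mul_right (huv.pow_right (n := 2))).add_mul_left_right (u + 6 * v)
      rwa [show 13 * v ^ 2 + u * (u + 6 * v) = q by rw [hq]; ring] at h2
    have h2 : u * q = z ^ 2 := by rw [hz]; ring
    obtain ⟨a, ha⟩ := exists_associated_pow_of_mul_eq_pow' hc h2
    obtain ⟨c, hc'⟩ := exists_associated_pow_of_mul_eq_pow' hc.symm (by rw [mul_comm]; exact h2)
    rcases Int.associated_iff.1 ha with ha | ha
    swap; · nlinarith [sq_nonneg a]
    rcases Int.associated_iff.1 hc' with hc' | hc'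
    swap; · nlinarith [sq_nonneg c]
    have ha0 : a ≠ 0 := by rintro rfl; simp at ha; omega
    refine quartic_no_solution e.natAbs a e c rfl ?_ ha0 he0 ?_
    · rw [← ha, ← hev] at huv
      exact (IsCoprime.pow_iff (by decide) (by decide)).1 huv
    · rw [hc', hq, ← ha, ← hev]; ring

end FLTAgent.X13
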