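import Fermat.Agent.X13.Curve
import Mathlib.AlgebraicGeometry.EllipticCurve.Affine.Point
import Mathlib.AlgebraicGeometry.EllipticCurve.VariableChange
import Mathlib.GroupTheory.OrderOfElement
import Mathlib.Tactic.NormNum.Prime

/-!
Tate normal form at a point of order 13, without changing the curve: the abscissae of the
multiples of the point and the resulting identity for the discriminant.
-/

set_option autoImplicit false

namespace FLTAgent.X13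

open WeierstrassCurve WeierstrassCurve.Affine

variable {K : Type*} [Field K] [DecidableEq K] {W : Affine K}

/-- The abscissa of a point, `0` at infinity. -/
def xc : W.Point → K
  | .zero => 0
  | @Point.some _ _ _ x _ _ => x

/-- The ratio `(x(2Q) - x(Q)) / (x(4Q) - x(Q))` minus its inverse. -/
def gterm (Q : W.Point) : K :=
  (xc (2 • Q) - xc Q) / (xc (4 • Q) - xc Q) - ((xc (2 • Q) - xc Q) / (xc (4 • Q) - xc Q))⁻¹

omit [DecidableEq K] in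
lemma xc_neg (Q : W.Point) : xc (-Q) = xc Q := by cases Q <;> rfl

lemma gterm_neg (Q : W.Point) : gterm (-Q) = gterm Q := by
  simp only [gterm, neg_nsmul, xc_neg]

omit [DecidableEq K] in
lemma eq_or_eq_neg_of_xc_eq {P Q : W.Point} (hP : P ≠ 0) (hQ : Q ≠ 0) (h : xc P = xc Q) :
    P = Q ∨ P = -Q := by
  cases P with
  | zero => exact absurd rfl hP
  | some x y hxy =>
    cases Q with
    | zero => exact absurd rfl hQ
    | some x' y' hxy' => exact Point.X_eq_iff.1 h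

section order13

variable {P : W.Point}

lemma nsmul_ne_zero13 (hP : addOrderOf P = 13) {n : ℕ} (h : ¬ 13 ∣ n) : n • P ≠ 0 := by
  rw [← hP] at h
  exact fun h0 => h (addOrderOf_dvd_iff_nsmul_eq_zero.2 h0)

lemma xc_nsmul_ne (hP : addOrderOf P = 13) {i j : ℕ} (hi : 0 < i) (hij : i < j) (hj : j ≤ 6) :
    xc (i • P) ≠ xc (j • P) := by
  intro h
  rcases eq_or_eq_neg_of_xc_eq (nsmul_ne_zero13 hP (by omega)) (nsmul_ne_zero13 hP (by omega)) h
    with h' | h'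
  · refine nsmul_ne_zero13 hP (n := j - i) (by omega) ?_
    rw [sub_nsmul _ hij.le, h', add_neg_cancel]
  · refine nsmul_ne_zero13 hP (n := i + j) (by omega) ?_
    rw [add_nsmul, h', neg_add_cancel]

end order13

/-- One addition step in Tate coordinates. -/
lemma add_step {x₁ y₁ : K} (h₁ : W.Nonsingular x₁ y₁) {u σ b c : K} (hu : u ≠ 0)
    (ha1 : W.a₁ = u * (1 - c) - 2 * σ) (ha2 : W.a₂ = -u ^ 2 * b + σ * W.a₁ - 3 * x₁ + σ ^ 2)
    (ha3 : W.a₃ = -u ^ 3 * b - x₁ * W.a₁ - 2 * y₁)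
    {X Y : K} (hX : X ≠ 0) (h : W.Nonsingular (x₁ + u ^ 2 * X) (y₁ + σ * u ^ 2 * X + u ^ 3 * Y))
    {ℓ X' Y' : K} (hℓ : ℓ * X = Y) (hX' : X' = ℓ ^ 2 + (1 - c) * ℓ + b - X)
    (hY' : Y' = -ℓ * X' - (1 - c) * X' + b) :
    ∃ h', Point.some _ _ h + Point.some _ _ h₁ =
      Point.some (W' := W) (x₁ + u ^ 2 * X') (y₁ + σ * u ^ 2 * X' + u ^ 3 * Y') h' := by
  have hne : x₁ + u ^ 2 * X ≠ x₁ := by simp [hu, hX]
  have hs : W.slope (x₁ + u ^ 2 * X) x₁ (y₁ + σ * u ^ 2 * X + u ^ 3 * Y) y₁ = σ + u * ℓ := by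
    rw [slope_of_X_ne hne, div_eq_iff (sub_ne_zero.2 hne), ← hℓ]; ring
  have hx : W.addX (x₁ + u ^ 2 * X) x₁ (σ + u * ℓ) = x₁ + u ^ 2 * X' := by
    rw [addX, hX', ha2, ha1]; ring
  have hy : W.addY (x₁ + u ^ 2 * X) x₁ (y₁ + σ * u ^ 2 * X + u ^ 3 * Y) (σ + u * ℓ)
      = y₁ + σ * u ^ 2 * X' + u ^ 3 * Y' := by
    rw [addY, negAddY, negY, hx, hY', ha3, ha1, ← hℓ]; ring
  have hns := nonsingular_add h h₁ (fun hh => hne hh.1)
  rw [hs, hx, hy] at hns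
  refine ⟨hns, ?_⟩
  rw [Point.add_of_X_ne hne]
  simp only [hs, hx, hy]

omit [DecidableEq K] in
/-- The discriminant in terms of the Tate parameters. -/
lemma Δ_tate {x₁ y₁ u σ b c : K} (hu : u ≠ 0)
    (ha1 : W.a₁ = u * (1 - c) - 2 * σ) (ha2 : W.a₂ = -u ^ 2 * b + σ * W.a₁ - 3 * x₁ + σ ^ 2)
    (ha3 : W.a₃ = -u ^ 3 * b - x₁ * W.a₁ - 2 * y₁)
    (ha4 : σ * (y₁ - (-y₁ - W.a₁ * x₁ - W.a₃)) = 3 * x₁ ^ 2 + 2 * W.a₂ * x₁ + W.a₄ - W.a₁ * y₁)
    (heq : y₁ ^ 2 + W.a₁ * x₁ * y₁ + W.a₃ * y₁ = x₁ ^ 3 + W.a₂ * x₁ ^ 2 + W.a₄ * x₁ + W.a₆) :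
    W.Δ = u ^ 12 * (b ^ 3 * (16 * b ^ 2 - 8 * b * c ^ 2 - 20 * b * c + b + c * (c - 1) ^ 3)) := by
  let Cv : VariableChange K := ⟨Units.mk0 u hu, x₁, σ, y₁⟩
  have v1 : (Cv • W).a₁ = 1 - c := by
    rw [variableChange_a₁]; simp only [Cv, Units.val_inv_eq_inv_val, Units.val_mk0]
    rw [ha1]; field_simp; ring
  have v2 : (Cv • W).a₂ = -b := by
    rw [variableChange_a₂]; simp only [Cv, Units.val_inv_eq_inv_val, Units.val_mk0]
    rw [ha2]; field_simp; ring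
  have v3 : (Cv • W).a₃ = -b := by
    rw [variableChange_a₃]; simp only [Cv, Units.val_inv_eq_inv_val, Units.val_mk0]
    rw [ha3]; field_simp; ring
  have v4 : (Cv • W).a₄ = 0 := by
    rw [variableChange_a₄]; simp only [Cv, Units.val_inv_eq_inv_val, Units.val_mk0]
    rw [mul_eq_zero]; right; linear_combination -ha4
  have v6 : (Cv • W).a₆ = 0 := by
    rw [variableChange_a₆]; simp only [Cv, Units.val_inv_eq_inv_val, Units.val_mk0]
    rw [mul_eq_zero]; right; linear_combination -heq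
  have h := variableChange_Δ W Cv
  rw [WeierstrassCurve.Δ, b₂, b₄, b₆, b₈, v1, v2, v3, v4, v6] at h
  simp only [Cv, Units.val_inv_eq_inv_val, Units.val_mk0] at h
  field_simp at h
  linear_combination -h

/-- The identity `Δ A(t)⁴ B(t)³ = t p⁶` for a point of order 13. -/
theorem exists_hauptmodul {P : W.Point} (hP : addOrderOf P = 13) :
    ∃ t : K, gterm (1 • P) + gterm (2 • P) + gterm (3 • P) + gterm (4 • P) + gterm (5 • P)
        + gterm (6 • P) = 3 * (t + 3) ∧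
      W.Δ * (t ^ 2 + 5 * t + 13) ^ 4 * (t ^ 2 + 6 * t + 13) ^ 3 =
        t * (W.b₂ + 2 * (xc (1 • P) + xc (2 • P) + xc (3 • P) + xc (4 • P) + xc (5 • P)
          + xc (6 • P))) ^ 6 := by
  cases P with
  | zero => simp [← Point.zero_def] at hP
  | some x₁ y₁ h₁ =>
  set P := Point.some x₁ y₁ h₁ with hPdef
  have h2P : P + P ≠ 0 := by
    rw [← two_nsmul]; exact nsmul_ne_zero13 hP (by decide)
  have hψ : y₁ ≠ W.negY x₁ y₁ := fun h => h2P (Point.add_self_of_Y_eq h)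
  set ψ := y₁ - W.negY x₁ y₁ with hψd
  have hψ0 : ψ ≠ 0 := sub_ne_zero.2 hψ
  set σ := (3 * x₁ ^ 2 + 2 * W.a₂ * x₁ + W.a₄ - W.a₁ * y₁) / ψ with hσd
  have hslope : W.slope x₁ x₁ y₁ y₁ = σ := slope_of_Y_ne rfl hψ
  set A2 := W.a₂ - σ * W.a₁ + 3 * x₁ - σ ^ 2 with hA2
  have hx2 : W.addX x₁ x₁ σ = x₁ - A2 := by rw [addX, hA2]; ring
  have hA20 : A2 ≠ 0 := by
    intro h0
    refine xc_nsmul_ne hP (i := 1) (j := 2) one_pos one_lt_two (by decide) ?_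
    rw [one_nsmul, two_nsmul, hPdef, Point.add_self_of_Y_ne hψ]
    simp only [xc, hslope, hx2, h0, sub_zero]
  obtain ⟨u, hu, hud⟩ : ∃ u : K, u ≠ 0 ∧ u = ψ / A2 := ⟨_, div_ne_zero hψ0 hA20, rfl⟩
  obtain ⟨b, hbd⟩ : ∃ b : K, b = -ψ / u ^ 3 := ⟨_, rfl⟩
  obtain ⟨c, hcd⟩ : ∃ c : K, c = 1 - (W.a₁ + 2 * σ) / u := ⟨_, rfl⟩
  have hub : u ^ 3 * b = -ψ := by rw [hbd]; field_simp
  have huA : u * A2 = ψ := by rw [hud, div_mul_cancel₀ _ hA20]
  have hub2 : u ^ 2 * b = -A2 := by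
    refine mul_left_cancel₀ hu ?_
    linear_combination hub + huA
  have ha1 : W.a₁ = u * (1 - c) - 2 * σ := by rw [hcd]; field_simp; ring
  have ha2 : W.a₂ = -u ^ 2 * b + σ * W.a₁ - 3 * x₁ + σ ^ 2 := by
    linear_combination hub2 - hA2
  have ha3 : W.a₃ = -u ^ 3 * b - x₁ * W.a₁ - 2 * y₁ := by
    rw [hψd, negY] at hub; linear_combination hub
  have ha4 : σ * ψ = 3 * x₁ ^ 2 + 2 * W.a₂ * x₁ + W.a₄ - W.a₁ * y₁ := div_mul_cancel₀ _ hψ0
  -- the multiples of `P`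
  obtain ⟨n2, e2⟩ : ∃ h', (2 : ℕ) • P =
      Point.some (W' := W) (x₁ + u ^ 2 * b) (y₁ + σ * u ^ 2 * b + u ^ 3 * (b * c)) h' := by
    have hns := nonsingular_add h₁ h₁ (fun hh => hψ hh.2)
    have hx : W.addX x₁ x₁ σ = x₁ + u ^ 2 * b := by rw [hx2, hub2]; ring
    have hy : W.addY x₁ x₁ y₁ σ = y₁ + σ * u ^ 2 * b + u ^ 3 * (b * c) := by
      rw [addY, negAddY, negY, hx, ha3, ha1]; ring
    rw [hslope, hx, hy] at hns
    refine ⟨hns, ?_⟩
    rw [two_nsmul, hPdef, Point.add_self_of_Y_ne hψ]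
    simp only [hslope, hx, hy]
  have step : ∀ {n : ℕ} {X Y ℓ X' Y' : K}
      (h : W.Nonsingular (x₁ + u ^ 2 * X) (y₁ + σ * u ^ 2 * X + u ^ 3 * Y)),
      X ≠ 0 → n • P = Point.some _ _ h → ℓ * X = Y → X' = ℓ ^ 2 + (1 - c) * ℓ + b - X →
      Y' = -ℓ * X' - (1 - c) * X' + b → ∃ h', (n + 1) • P =
        Point.some (W' := W) (x₁ + u ^ 2 * X') (y₁ + σ * u ^ 2 * X' + u ^ 3 * Y') h' := by
    intro n X Y ℓ X' Y' h hX hn hℓ hX' hY'
    obtain ⟨h', e⟩ := add_step h₁ hu ha1 ha2 ha3 hX h hℓ hX' hY'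
    exact ⟨h', by rw [succ_nsmul, hn]; exact e⟩
  have dist : ∀ {i j : ℕ} {X Y X' Y' : K} {h} {h'}, 0 < i → i < j → j ≤ 6 →
      i • P = Point.some (W' := W) (x₁ + u ^ 2 * X) Y h →
      j • P = Point.some (W' := W) (x₁ + u ^ 2 * X') Y' h' → X ≠ X' := by
    intro i j X Y X' Y' h h' hi hij hj ei ej hXX
    exact xc_nsmul_ne hP hi hij hj (by rw [ei, ej]; simp only [xc, hXX])
  have e1 : (1 : ℕ) • P = Point.some (W' := W) (x₁ + u ^ 2 * 0) y₁ (by simpa using h₁) := by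
    simp [hPdef]
  have hb : b ≠ 0 := (dist one_pos one_lt_two (by decide) e1 e2).symm
  obtain ⟨n3, e3⟩ := step (ℓ := c) (X' := c) (Y' := b - c) n2 hb e2 (mul_comm c b)
    (by ring) (by ring)
  have hc : c ≠ 0 := (dist one_pos (by decide) (by decide) e1 e3).symm
  obtain ⟨r, hr⟩ : ∃ r, b = r * c := ⟨b / c, (div_mul_cancel₀ b hc).symm⟩
  obtain ⟨n4, e4⟩ := step (ℓ := r - 1) (X' := r * (r - 1)) (Y' := r ^ 2 * (c - r + 1)) n3 hc e3
    (by rw [hr]; ring) (by rw [hr]; ring) (by rw [hr]; ring)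
  have hX4 : r * (r - 1) ≠ 0 := (dist one_pos (by decide) (by decide) e1 e4).symm
  have hr1 : r - 1 ≠ 0 := right_ne_zero_of_mul hX4
  have hr0 : r ≠ 0 := left_ne_zero_of_mul hX4
  obtain ⟨s, hs⟩ : ∃ s, c = s * (r - 1) := ⟨c / (r - 1), (div_mul_cancel₀ c hr1).symm⟩
  have hs0 : s ≠ 0 := fun h => hc (by rw [hs, h, zero_mul])
  obtain ⟨n5, e5⟩ := step (ℓ := r * (s - 1)) (X' := r * s * (s - 1)) (Y' := r * s ^ 2 * (r - s))
    n4 hX4 e4 (by rw [hs]; ring) (by rw [hr, hs]; ring) (by rw [hr, hs]; ring)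
  have hX5 : r * s * (s - 1) ≠ 0 := (dist one_pos (by decide) (by decide) e1 e5).symm
  have hs1 : s - 1 ≠ 0 := right_ne_zero_of_mul hX5
  obtain ⟨ℓ6, hℓ6⟩ : ∃ ℓ6, ℓ6 * (s - 1) = s * (r - s) := ⟨_, div_mul_cancel₀ _ hs1⟩
  obtain ⟨X6, hX6⟩ : ∃ X6, X6 = ℓ6 ^ 2 + (1 - c) * ℓ6 + b - r * s * (s - 1) := ⟨_, rfl⟩
  obtain ⟨n6, e6⟩ := step (ℓ := ℓ6) (X' := X6) (Y' := -ℓ6 * X6 - (1 - c) * X6 + b) n5 hX5 e5
    (by linear_combination (r * s) * hℓ6) hX6 rfl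
  have hX60 : X6 ≠ 0 := (dist one_pos (by decide) (by decide) e1 e6).symm
  have hN6 : X6 * (s - 1) ^ 2 = s * (s - r - r * s + r ^ 2) := by
    rw [hX6, hr, hs]
    linear_combination (ℓ6 * (s - 1) + s * (r - s) + (1 - s * (r - 1)) * (s - 1)) * hℓ6
  obtain ⟨ℓ7, hℓ7⟩ : ∃ ℓ7, ℓ7 * X6 = -ℓ6 * X6 - (1 - c) * X6 + b := ⟨_, div_mul_cancel₀ _ hX60⟩
  obtain ⟨n7, e7⟩ := step (ℓ := ℓ7) (X' := ℓ7 ^ 2 + (1 - c) * ℓ7 + b - X6)
    (Y' := -ℓ7 * (ℓ7 ^ 2 + (1 - c) * ℓ7 + b - X6) - (1 - c) * (ℓ7 ^ 2 + (1 - c) * ℓ7 + b - X6) + b)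
    n6 hX60 e6 hℓ7 rfl rfl
  -- `7 P = - 6 P`
  have h7 : ℓ7 ^ 2 + (1 - c) * ℓ7 + b - X6 = X6 := by
    have h : xc ((7 : ℕ) • P) = xc ((6 : ℕ) • P) := by
      have : (7 : ℕ) • P = -((6 : ℕ) • P) := by
        refine eq_neg_of_add_eq_zero_left ?_
        rw [← add_nsmul]
        rw [show (7 + 6 : ℕ) = addOrderOf P by rw [hP]]
        exact addOrderOf_nsmul_eq_zero P
      rw [this, xc_neg]
    rw [show (7 : ℕ) = 6 + 1 from rfl, e7, e6] at h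
    simp only [xc] at h
    exact mul_left_cancel₀ (pow_ne_zero 2 hu) (add_left_cancel h)
  have hG' : (r * s * (s - 1) - X6) * X6 ^ 2 - b * X6 * (2 * ℓ6 + (1 - c)) + b ^ 2 = 0 := by
    have h' : (ℓ7 * X6) ^ 2 + (1 - c) * (ℓ7 * X6) * X6 + b * X6 ^ 2 - 2 * X6 * X6 ^ 2 = 0 := by
      linear_combination X6 ^ 2 * h7
    rw [hℓ7] at h'
    linear_combination h' + X6 ^ 2 * hX6
  have hG : let c := s * (r - 1); let b := r * c
      let X5 := r * s * (s - 1); let N6 := s * (s - r - r * s + r ^ 2)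
      (X5 * (s - 1) ^ 2 - N6) * N6 ^ 2
        - b * N6 * (2 * (s * (r - s)) + (1 - c) * (s - 1)) * (s - 1) ^ 3
        + b ^ 2 * (s - 1) ^ 6 = 0 := by
    simp only
    rw [← hs, ← hr, ← hN6, ← hℓ6]
    linear_combination (s - 1) ^ 6 * hG'
  have hrs : r - s ≠ 0 := by
    intro h
    apply hX60
    rw [sub_eq_zero.1 h] at hN6
    have : X6 * (s - 1) ^ 2 = 0 := by rw [hN6]; ring
    simpa [hs1] using this
  obtain ⟨x, y, hx, hM, hy, hY, hrx, hsx, hC⟩ := exists_model hs0 hr1 hs1 hrs hG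
  have hsY : s * (y + 1) = y + 1 - x * y := by rw [hsx]; field_simp
  have hc' : c * (y + 1) = (y + 1 - x * y) * (1 - x * y - 1) := by
    rw [hs, ← hsY, hrx]; ring
  have hb' : b * (y + 1) = (1 - x * y) * ((y + 1 - x * y) * (1 - x * y - 1)) := by
    rw [hr, ← hc', hrx]; ring
  obtain ⟨t, ht, hkey⟩ := model_key (X4 := r * (r - 1)) (X5 := r * s * (s - 1)) (X6 := X6) hx hM hy hY
    (by rw [← hsY]; exact mul_ne_zero hs0 hY) hC hc' hb' (by rw [hrx])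
    (by rw [← hsY, hrx]; ring)
    (by
      have e : (s - 1) * (y + 1) = -(x * y) := by rw [sub_mul, hsY]; ring
      have : X6 * (s - 1) ^ 2 * (y + 1) ^ 2 = s * (s - r - r * s + r ^ 2) * (y + 1) ^ 2 := by
        rw [hN6]
      rw [show X6 * (s - 1) ^ 2 * (y + 1) ^ 2 = X6 * ((s - 1) * (y + 1)) ^ 2 by ring, e] at this
      rw [← hsY, hrx] at *
      linear_combination this)
    hX4
    (sub_ne_zero.2 (dist (by decide) (by decide) (by decide) e2 e5).symm)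
    (neg_ne_zero.2 hc)
    (sub_ne_zero.2 (dist (by decide) (by decide) (by decide) e3 e4))
    (sub_ne_zero.2 (dist (by decide) (by decide) (by decide) e5 e6).symm)
    (sub_ne_zero.2 (dist (by decide) (by decide) (by decide) e2 e6))
  refine ⟨t, ?_, ?_⟩
  · rw [← ht]
    have hneg : ∀ {i j : ℕ}, i + j = 13 → xc (i • P) = xc (j • P) := by
      intro i j hij
      have : i • P = -(j • P) := eq_neg_of_add_eq_zero_left (by
        rw [← add_nsmul, hij, ← hP]; exact addOrderOf_nsmul_eq_zero P)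
      rw [this, xc_neg]
    have hmod : ∀ {i : ℕ} (j : ℕ), i = 13 + j → xc (i • P) = xc (j • P) := by
      intro i j hij
      rw [hij, add_nsmul, ← hP, addOrderOf_nsmul_eq_zero, zero_add]
    simp only [gterm, ← mul_nsmul]
    norm_num only
    rw [hneg (i := 8) (j := 5) rfl, hneg (i := 12) (j := 1) rfl, hneg (i := 10) (j := 3) rfl,
      hmod (i := 16) 3 rfl, hmod (i := 20) 7 rfl, hmod (i := 24) 11 rfl,
      hneg (i := 7) (j := 6) rfl, hneg (i := 11) (j := 2) rfl, e1, e2, e3, e4, e5, e6]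
    simp only [xc, add_sub_add_left_eq_sub, ← mul_sub, mul_zero, add_zero,
      sub_add_cancel_left, add_sub_cancel_left, ← mul_neg, mul_div_mul_left _ _ (pow_ne_zero 2 hu)]
  · have hΔ : W.Δ = u ^ 12 *
        (b ^ 3 * (16 * b ^ 2 - 8 * b * c ^ 2 - 20 * b * c + b + c * (c - 1) ^ 3)) := by
      refine Δ_tate hu ha1 ha2 ha3 ?_ ((equation_iff x₁ y₁).1 h₁.1)
      rw [hψd, negY] at ha4
      exact ha4
    have hp : W.b₂ + 2 * (xc ((1 : ℕ) • P) + xc ((2 : ℕ) • P) + xc ((3 : ℕ) • P) + xc ((4 : ℕ) • P)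
        + xc ((5 : ℕ) • P) + xc ((6 : ℕ) • P)) = u ^ 2 * ((1 - c) ^ 2 - 4 * b
          + 2 * (b + c + r * (r - 1) + r * s * (s - 1) + X6)) := by
      rw [e1, e2, e3, e4, e5, e6]
      simp only [xc, b₂]
      rw [ha2, ha1]; ring
    rw [hΔ, hp]
    revert hkey
    generalize b ^ 3 * (16 * b ^ 2 - 8 * b * c ^ 2 - 20 * b * c + b + c * (c - 1) ^ 3) = D
    generalize (t ^ 2 + 5 * t + 13) ^ 4 = A
    generalize (t ^ 2 + 6 * t + 13) ^ 3 = B
    generalize (1 - c) ^ 2 - 4 * b + 2 * (b + c + r * (r - 1) + r * s * (s - 1) + X6) = p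
    intro hkey
    rw [mul_assoc (u ^ 12), mul_assoc (u ^ 12), hkey]
    ring

end FLTAgent.X13
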