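import Fermat.Agent.X13.Descent
import Fermat.Agent.X13.Tate
import Mathlib.Algebra.Algebra.Rat
import Mathlib.Algebra.BigOperators.Fin
import Mathlib.Data.ZMod.Basic
import Mathlib.FieldTheory.Galois.Infinite
import Mathlib.FieldTheory.IsAlgClosed.AlgebraicClosure
import Mathlib.FieldTheory.Perfect
import Fermat.Prelude.Def_FLTPrelim_GaloisRep

/-!
No elliptic curve over `ℚ` with square discriminant has a rational subgroup of order 13.
-/

set_option autoImplicit false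

namespace FLTAgent.X13

open WeierstrassCurve WeierstrassCurve.Affine
open scoped WeierstrassCurve.Affine

local notation "Qbar" => AlgebraicClosure ℚ

lemma exists_rat_of_fixed {z : Qbar} (h : ∀ σ : Qbar ≃ₐ[ℚ] Qbar, σ z = z) :
    ∃ q : ℚ, (q : Qbar) = z := by
  have : IsAlgClosure ℚ Qbar := ⟨inferInstance, AlgebraicClosure.isAlgebraic ℚ⟩
  have : Algebra.IsAlgebraic ℚ Qbar := AlgebraicClosure.isAlgebraic ℚ
  have : Normal ℚ Qbar := IsAlgClosure.normal ℚ Qbar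
  have : IsGalois ℚ Qbar := ⟨⟩
  obtain ⟨q, hq⟩ := (InfiniteGalois.mem_range_algebraMap_iff_fixed z).2 h
  exact ⟨q, by rw [← hq, eq_ratCast]⟩

variable {W : WeierstrassCurve ℚ}

lemma xc_smul (σ : Qbar ≃ₐ[ℚ] Qbar) (Q : (W⁄Qbar).Point) : xc (σ • Q) = σ (xc Q) := by
  cases Q with
  | zero => exact (map_zero σ).symm
  | some x y h => rfl

lemma gterm_smul (σ : Qbar ≃ₐ[ℚ] Qbar) (Q : (W⁄Qbar).Point) :
    gterm (σ • Q) = σ (gterm Q) := by
  have h : ∀ n : ℕ, n • (σ • Q) = σ • (n • Q) := fun n =>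
    (map_nsmul (DistribSMul.toAddMonoidHom (W⁄Qbar).Point σ) n Q).symm
  simp only [gterm, h, xc_smul, map_sub, map_div₀, map_inv₀]

/-- **No rational subgroup of order 13 on a curve with square discriminant.** -/
theorem no_stable_line (W : WeierstrassCurve ℚ) [W.IsElliptic] (hsq : IsSquare W.Δ)
    (P : (W⁄Qbar).Point) (hP : addOrderOf P = 13)
    (hst : ∀ σ : Qbar ≃ₐ[ℚ] Qbar, σ • P ∈ AddSubgroup.zmultiples P) : False := by
  have : Fact (Nat.Prime 13) := ⟨by norm_num⟩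
  obtain ⟨t, ht, hΔ⟩ := exists_hauptmodul hP
  set G : ZMod 13 → Qbar := fun k => gterm (k.val • P) with hG
  set X : ZMod 13 → Qbar := fun k => xc (k.val • P) with hX
  have hmod : ∀ n : ℕ, (n % 13) • P = n • P := fun n => by rw [← hP, mod_addOrderOf_nsmul]
  have hneg : ∀ i j : ℕ, i + j = 13 → i • P = -(j • P) := fun i j hij =>
    eq_neg_of_add_eq_zero_left
      (by rw [← add_nsmul, hij, ← hP]; exact addOrderOf_nsmul_eq_zero P)
  -- the Galois action permutes the index set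
  have hperm : ∀ σ : Qbar ≃ₐ[ℚ] Qbar, σ (∑ k, G k) = ∑ k, G k ∧ σ (∑ k, X k) = ∑ k, X k := by
    intro σ
    obtain ⟨m', hm'⟩ := AddSubgroup.mem_zmultiples_iff.1 (hst σ)
    set m : ZMod 13 := (m' : ZMod 13) with hm
    have hσ : σ • P = m.val • P := by
      rw [← hm', ← natCast_zsmul]
      have : ((m.val : ℤ) : ZMod 13) = (m' : ZMod 13) := by
        push_cast; rw [ZMod.natCast_zmod_val]
      obtain ⟨d, hd⟩ := (ZMod.intCast_eq_intCast_iff_dvd_sub _ _ 13).1 this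
      rw [← sub_eq_zero, sub_eq_add_neg, ← neg_zsmul, ← add_zsmul, ← sub_eq_add_neg, hd, mul_comm,
        mul_zsmul, natCast_zsmul]
      rw [← hP, addOrderOf_nsmul_eq_zero, zsmul_zero]
    have hm0 : m ≠ 0 := by
      intro h0
      rw [h0, ZMod.val_zero, zero_nsmul] at hσ
      have hP0 : P = 0 := by
        rw [← inv_smul_smul σ P, hσ, smul_zero]
      rw [hP0, addOrderOf_zero] at hP
      omega
    have hk : ∀ k : ZMod 13, σ • (k.val • P) = (m * k).val • P := fun k => by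
      rw [show σ • (k.val • P) = k.val • (σ • P) from
          map_nsmul (DistribSMul.toAddMonoidHom (W⁄Qbar).Point σ) _ _,
        hσ, ← mul_nsmul, ZMod.val_mul, hmod]
    simp only [map_sum, hG, hX, ← gterm_smul, ← xc_smul, hk]
    exact ⟨Equiv.sum_comp (Equiv.mulLeft₀ m hm0) fun k => gterm (k.val • P),
      Equiv.sum_comp (Equiv.mulLeft₀ m hm0) fun k => xc (k.val • P)⟩
  have hsum : ∀ f : (W⁄Qbar).Point → Qbar, (∀ Q, f (-Q) = f Q) → f 0 = 0 →
      ∑ k : ZMod 13, f (k.val • P) = 2 * (f (1 • P) + f (2 • P) + f (3 • P) + f (4 • P)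
        + f (5 • P) + f (6 • P)) := by
    intro f hf h0
    show ∑ k : Fin 13, f ((k : ℕ) • P) = _
    rw [Fin.sum_univ_eq_sum_range (fun n => f (n • P)) 13]
    simp only [Finset.sum_range_succ, Finset.sum_range_zero, zero_nsmul, h0, zero_add]
    rw [hneg 7 6 rfl, hneg 8 5 rfl, hneg 9 4 rfl, hneg 10 3 rfl, hneg 11 2 rfl, hneg 12 1 rfl]
    simp only [hf]
    ring
  have hGs := hsum gterm gterm_neg (by simp [gterm, xc])
  have hXs := hsum xc xc_neg rfl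
  rw [ht] at hGs
  rw [← hXs] at hΔ
  obtain ⟨t₀, ht₀⟩ : ∃ q : ℚ, (q : Qbar) = t := by
    obtain ⟨q, hq⟩ := exists_rat_of_fixed fun σ => (hperm σ).1
    exact ⟨q / 6 - 3, by push_cast; rw [hq, hG, hGs]; ring⟩
  obtain ⟨q, hq⟩ := exists_rat_of_fixed fun σ => (hperm σ).2
  have hΔ₀ : (W⁄Qbar).Δ = (W.Δ : Qbar) := by
    show (W.map (algebraMap ℚ Qbar)).Δ = _; rw [map_Δ, eq_ratCast]
  have hb : (W⁄Qbar).b₂ = (W.b₂ : Qbar) := by
    show (W.map (algebraMap ℚ Qbar)).b₂ = _; rw [map_b₂, eq_ratCast]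
  rw [hΔ₀, hb, ← ht₀, ← (hX ▸ hq : (q : Qbar) = ∑ k : ZMod 13, xc (k.val • P))] at hΔ
  have key : W.Δ * (t₀ ^ 2 + 5 * t₀ + 13) ^ 4 * (t₀ ^ 2 + 6 * t₀ + 13) ^ 3
      = t₀ * (W.b₂ + q) ^ 6 := by exact_mod_cast hΔ
  have hA : t₀ ^ 2 + 5 * t₀ + 13 ≠ 0 := by nlinarith [sq_nonneg (2 * t₀ + 5)]
  have hB : t₀ ^ 2 + 6 * t₀ + 13 ≠ 0 := by nlinarith [sq_nonneg (t₀ + 3)]
  obtain ⟨d, hd⟩ := hsq
  have hd0 : d ≠ 0 := by
    rintro rfl; exact W.isUnit_Δ.ne_zero (by rw [hd, zero_mul])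
  set A := t₀ ^ 2 + 5 * t₀ + 13
  set B := t₀ ^ 2 + 6 * t₀ + 13 with hBd
  have hsq' : (t₀ * (W.b₂ + q) ^ 3 / (d * A ^ 2 * B)) ^ 2 = t₀ * B := by
    field_simp
    rw [hd] at key
    linear_combination -t₀ * key
  have := curve52_rat_eq_zero (by rw [hBd] at hsq'; exact hsq')
  rw [this, zero_mul] at key
  exact mul_ne_zero (mul_ne_zero W.isUnit_Δ.ne_zero (pow_ne_zero 4 hA)) (pow_ne_zero 3 hB) key

end FLTAgent.X13
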